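import Fermat.Agent.S35.G.Spec
import Fermat.Agent.Ribet.H801.DegBeta

/-!
# S35, piece (G'), leaf DEG (helper73): `deg : DegStatement`

The degeneracy push-forwards `degA = α_*`, `degB = β_* : J₀(M q) → J₀(M)` are the maps
`alphaPush`, `betaPush` of helper801 (`Ribet/H801/DegAlpha.lean`, `DegBeta.lean`), whose
inputs (integral, finite, norm formula: `Lib/HI/H864`) and Hecke-equivariance
(`alphaPush_heckeOperatorBar`, `betaPush_heckeOperatorBar`) are on main.
-/

set_option autoImplicit false

noncomputable section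

namespace Fermat.Agent.S35.G.H73

open ModularCurve AlgebraicCurve Fermat.Agent.S35.G Fermat.Agent.Lib.HI

variable (M q : ℕ) [NeZero M] [NeZero q]

/-- The inputs of `pic0Push` for `α`. -/
theorem pushInputs_alpha : PushInputs (heckeAlphaBar Qb M q) :=
  ⟨H864.heckeAlphaBarIntegral M q, H864.finiteAlong_alpha M q, H864.normFormulaAlong_alpha M q _⟩

/-- The inputs of `pic0Push` for `β`. -/
theorem pushInputs_beta : PushInputs (heckeBetaBar Qb M q) :=
  ⟨H864.heckeBetaBarIntegral M q, H864.finiteAlong_beta M q, H864.normFormulaAlong_beta M q _⟩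

/-- `degA` is helper801's `alphaPush`. -/
theorem degA_eq_alphaPush : degA M q = Ribet.H801.alphaPush M q := by
  rw [degA, pic0PushTotal_eq (heckeAlphaBar Qb M q) (H864.heckeAlphaBarIntegral M q)
    (H864.finiteAlong_alpha M q) (H864.normFormulaAlong_alpha M q _)]
  rfl

/-- `degB` is helper801's `betaPush`. -/
theorem degB_eq_betaPush : degB M q = Ribet.H801.betaPush M q := by
  rw [degB, pic0PushTotal_eq (heckeBetaBar Qb M q) (H864.heckeBetaBarIntegral M q)
    (H864.finiteAlong_beta M q) (H864.normFormulaAlong_beta M q _)]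
  rfl

/-- `degA` is Galois-equivariant. -/
theorem degA_smul (σ : Qb ≃ₐ[ℚ] Qb) (x : JZero (M * q)) : degA M q (σ • x) = σ • degA M q x := by
  rw [degA_eq_alphaPush]
  exact Ribet.H801.alphaPush_smul M q σ x

/-- `degB` is Galois-equivariant. -/
theorem degB_smul (σ : Qb ≃ₐ[ℚ] Qb) (x : JZero (M * q)) : degB M q (σ • x) = σ • degB M q x := by
  rw [degB_eq_betaPush]
  exact Ribet.H801.betaPush_smul M q σ x

end Fermat.Agent.S35.G.H73

namespace Fermat.Agent.S35.G.H73

open ModularCurve AlgebraicCurve Fermat.Agent.S35.G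

/-- **DEG.** -/
theorem deg : DegStatement := by
  intro M q _ _ hq _
  refine ⟨pushInputs_alpha M q, pushInputs_beta M q, fun ℓ hℓ x => ?_, fun ℓ hℓ x => ?_⟩
  · have hne : (ℓ : ℕ) ≠ q := fun h => hℓ (h ▸ Dvd.intro_left M rfl)
    rw [degA_eq_alphaPush]
    exact Ribet.H801.alphaPush_heckeOperatorBar M q hq ℓ hne x
  · have hne : (ℓ : ℕ) ≠ q := fun h => hℓ (h ▸ Dvd.intro_left M rfl)
    rw [degB_eq_betaPush]
    exact Ribet.H801.betaPush_heckeOperatorBar M q hq ℓ hne x

end Fermat.Agent.S35.G.H73
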